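/-
MAZ moduli side, link (7) D3', reduction half, inputs (Ra) + (Rb) of helper86's ruling (helper18).

For a field `k` and the function field `F̃ = modularFunctionFieldFullC k p = k(j̄, j̄_p) ⊆ k((q))`:

* (Rb) `qPlace k p : Place k F̃`, the place cut out by the `q`-order; `ord j̄ = -1`, `ord j̄_p = -p`,
  more generally `ord f = (f : k((q))).order`;
* (Ra) for `k = ResidueField A`, `A` a valuation subring of `ℚbar` over `ℓ ≠ p` (`p` prime): the poles of
  `j̄` on `F̃` are finite in number and the pole divisor of `j̄` has degree `p + 1`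
  (`F̃ / k(j̄)` is separable of degree `ψ(p) = p + 1`; fundamental identity `SumOrdSep15`).
-/
import Mathlib
import Fermat.Agent.ES.RED.SpecialGen25
import Fermat.Agent.ES.RED.SumOrdSep15
import Fermat.Agent.X0.LaurentPlace
import Fermat.Agent.X0.GNPsi
import Fermat.Agent.IG.VAL.OvBasics22
import Fermat.Agent.IG.AN.ModPoly3
import Fermat.Agent.IG.PR.ThetaV1
import Fermat.Agent.MAZ.RedFibre34.Main

set_option autoImplicit false
set_option linter.unusedSectionVars false
set_option linter.style.haveILetI false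

open HahnSeries IntermediateField AlgebraicCurve ModularCurve

noncomputable section

namespace Fermat.Agent.MAZ.RedCusp18

open Fermat.Agent.X0 Fermat.Agent.X0.LaurentPlace Fermat.Agent.MAZ.RedFibre34

/-! ### (Rb) the `q`-order place -/

section QPlace

variable (k : Type*) [Field k] (p : ℕ) [NeZero p]

/-- The tautological embedding `F̃ ⊆ k((q))`. -/
def qEmb : ↥(modularFunctionFieldFullC k p) →+* LaurentSeries k :=
  (modularFunctionFieldFullC k p).val.toRingHom

@[simp] theorem qEmb_apply (f : ↥(modularFunctionFieldFullC k p)) :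
    qEmb k p f = (f : LaurentSeries k) := rfl

theorem qEmb_algebraMap (c : k) :
    qEmb k p (algebraMap k ↥(modularFunctionFieldFullC k p) c) = HahnSeries.C c := by
  show algebraMap k (LaurentSeries k) c = HahnSeries.C c
  rw [algebraMap_laurentSeries_eq_single, HahnSeries.C_apply]

theorem order_jk : ((jk k p : ↥(modularFunctionFieldFullC k p)) : LaurentSeries k).order = -1 :=
  Fermat.Agent.IG.AN.ModPoly3.order_jqModC k

theorem order_jpk :
    ((jpk k p : ↥(modularFunctionFieldFullC k p)) : LaurentSeries k).order = -(p : ℤ) := by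
  show (qExpand k p (jqModC k)).order = _
  rw [Fermat.Agent.IG.PR.ThetaV1.order_qExpand, Fermat.Agent.IG.AN.ModPoly3.order_jqModC]
  ring

theorem qEmb_nontrivial :
    ∃ f : ↥(modularFunctionFieldFullC k p), f ≠ 0 ∧ (qEmb k p f).order ≠ 0 :=
  ⟨jk k p, jk_ne_zero k p, by rw [qEmb_apply, order_jk]; norm_num⟩

/-- **The `q`-order place** of `F̃ = k(j̄, j̄_p)`. -/
def qPlace : Place k ↥(modularFunctionFieldFullC k p) :=
  embPlace (qEmb k p) (qEmb_algebraMap k p) (qEmb_nontrivial k p)

/-- The order at the `q`-place is the `q`-order. -/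
theorem qPlace_ord {f : ↥(modularFunctionFieldFullC k p)} (hf : f ≠ 0) :
    (qPlace k p).ord f = (f : LaurentSeries k).order := by
  obtain ⟨m, hm, h⟩ := embPlace_spec (qEmb k p) (qEmb_algebraMap k p) (qEmb_nontrivial k p)
  have h1 := h (jk k p) (jk_ne_zero k p)
  rw [qEmb_apply, order_jk] at h1
  have hm1 : (m : ℤ) = 1 := by
    apply Int.eq_one_of_dvd_one (by positivity)
    exact ⟨-(embPlace (qEmb k p) (qEmb_algebraMap k p) (qEmb_nontrivial k p)).ord (jk k p), by
      linarith⟩
  have h2 := h f hf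
  rw [hm1, one_mul, qEmb_apply] at h2
  exact h2.symm

theorem qPlace_ord_jk : (qPlace k p).ord (jk k p) = -1 := by
  rw [qPlace_ord k p (jk_ne_zero k p), order_jk]

theorem jpk_ne_zero : jpk k p ≠ 0 := by
  intro h
  have h1 := order_jpk k p
  rw [h] at h1
  have h2 : ((0 : ↥(modularFunctionFieldFullC k p)) : LaurentSeries k).order = 0 :=
    HahnSeries.order_zero
  have hp : (p : ℤ) ≠ 0 := by exact_mod_cast NeZero.ne p
  omega

theorem qPlace_ord_jpk : (qPlace k p).ord (jpk k p) = -(p : ℤ) := by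
  rw [qPlace_ord k p (jpk_ne_zero k p), order_jpk]

/-- **(Rb)** -/
theorem exists_qPlace : ∃ Pq : Place k ↥(modularFunctionFieldFullC k p),
    Pq.ord (jk k p) = -1 ∧ Pq.ord (jpk k p) = -(p : ℤ) :=
  ⟨qPlace k p, qPlace_ord_jk k p, qPlace_ord_jpk k p⟩

end QPlace

/-! ### (Ra) the pole divisor of `j̄` has degree `p + 1` -/

section Poles

open Fermat.Agent.ES.RED.SpecialGen25 Fermat.Agent.ES.RED.SumOrdSep15
  Fermat.Agent.ES.RED.SpecialDegree25

variable (p : ℕ) [NeZero p]

/-- `F̃ / k(j̄)` : generator, separability and degree, for `k` algebraically closed of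
characteristic `ℓ ∤ p`. -/
theorem isGen_sep_jk (k : Type) [Field k] [IsAlgClosed k] (ℓ : ℕ) [Fact ℓ.Prime] [CharP k ℓ]
    (hℓp : ¬ ℓ ∣ p) :
    FF.IsGen k (jk k p) ∧
      Algebra.IsSeparable
        ↥(k⟮jk k p⟯ : IntermediateField k ↥(modularFunctionFieldFullC k p))
        ↥(modularFunctionFieldFullC k p) ∧
      Module.finrank
        ↥(k⟮jk k p⟯ : IntermediateField k ↥(modularFunctionFieldFullC k p))
        ↥(modularFunctionFieldFullC k p) = dedekindPsi p := by
  have hrel : relfinrank k⟮jqModC k⟯ (modularFunctionFieldFullC k p) = dedekindPsi p :=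
    Fermat.Agent.RED.PUR.DegBaseChange25.relfinrank_fullC_eq_psi_of_charP ℓ k p hℓp
  have hne : relfinrank k⟮jqModC k⟯ (modularFunctionFieldFullC k p) ≠ 0 := by
    rw [hrel]
    exact (Fermat.Agent.X0.GNPsi.gnp_dedekindPsi_pos (NeZero.ne p)).ne'
  have hgen : FF.IsGen k (jk k p) :=
    isGen_of_relfinrank_ne_zero (modularFunctionFieldFullC k p) (jk k p)
      (Fermat.Agent.IG.VAL.OvBasics22.transcendental_jqModC k) hne
  have hsep := (finite_and_separable_of_order (k := k) ℓ
    (Fermat.Agent.IG.AN.ModPoly3.order_jqModC k) (modularFunctionFieldFullC k p)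
    (adjoin_simple_le (modularFunctionFieldFullC k p) (jk k p)) hne).2
  refine ⟨hgen, isSeparable_adjoin_simple_of_extendScalars (h := hsep) _ (jk k p), ?_⟩
  rw [finrank_adjoin_simple_eq_relfinrank]
  exact hrel

/-- **(Ra)**, field form: the poles of `j̄` are finite in number and the pole divisor has degree
`p + 1`. -/
theorem poles_jk_field (hp : p.Prime) (k : Type) [Field k] [IsAlgClosed k] (ℓ : ℕ) [Fact ℓ.Prime]
    [CharP k ℓ] (hℓp : ℓ ≠ p) :
    {v : Place k ↥(modularFunctionFieldFullC k p) | v.ord (jk k p) < 0}.Finite ∧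
    ∑ᶠ (v : Place k ↥(modularFunctionFieldFullC k p)) (_ : v.ord (jk k p) < 0),
        -v.ord (jk k p) = (p : ℤ) + 1 := by
  have hℓp' : ¬ ℓ ∣ p := fun h => hℓp ((Nat.prime_dvd_prime_iff_eq Fact.out hp).1 h)
  obtain ⟨hgen, hsep, hdeg⟩ := isGen_sep_jk p k ℓ hℓp'
  haveI := hsep
  refine ⟨finite_poles_sep hgen, ?_⟩
  rw [sum_ord_poles_sep hgen, hdeg]
  have hψ : dedekindPsi p = p + 1 := by
    have := Fermat.Agent.X0.GNPsi.gnp_dedekindPsi_prime_pow hp 0
    simpa using this
  rw [hψ]
  push_cast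
  ring

set_option synthInstance.maxHeartbeats 400000 in
/-- **(Ra)** for `k = ResidueField A`, `A` over `ℓ ≠ p`. -/
theorem poles_jk (A : ValuationSubring (AlgebraicClosure ℚ)) (hp : p.Prime) {ℓ : ℕ} (hℓ : ℓ.Prime)
    (hℓp : ℓ ≠ p) (hA : A.LiesOverPrime ℓ) :
    {v : Place (IsLocalRing.ResidueField A)
        ↥(modularFunctionFieldFullC (IsLocalRing.ResidueField A) p) |
      v.ord (jk (IsLocalRing.ResidueField A) p) < 0}.Finite ∧
    ∑ᶠ (v : Place (IsLocalRing.ResidueField A)
        ↥(modularFunctionFieldFullC (IsLocalRing.ResidueField A) p))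
      (_ : v.ord (jk (IsLocalRing.ResidueField A) p) < 0),
        -v.ord (jk (IsLocalRing.ResidueField A) p) = (p : ℤ) + 1 := by
  haveI : Fact ℓ.Prime := ⟨hℓ⟩
  haveI : IsAlgClosed (IsLocalRing.ResidueField A) :=
    Fermat.Agent.ES.KRON.KronInst10.isAlgClosed_residueField A
  haveI : CharP (IsLocalRing.ResidueField A) ℓ :=
    Fermat.Agent.ES.KRON.KronInst10.charP_residueField A hℓ hA
  exact poles_jk_field p hp (IsLocalRing.ResidueField A) ℓ hℓp

end Poles

end Fermat.Agent.MAZ.RedCusp18
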