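/-
MAZ moduli side, link (7) D3', reduction half (helper18): the inputs (Ra) `PoleDegHyp` and (Rb)
`QPlaceHyp` of helper34's `RedFibre34.red_cusp_abs`, in his exact shapes, for algebraically closed
fields of characteristic `ℓ ≠ p` and for `k = ResidueField A`; consequence: `RedCuspHyp r` and
`CuspHyp r (cuspInf p) (cuspZero p)` for every place reduction `r` modulo `ℓ ≠ p`.
-/
import Mathlib
import Fermat.Agent.MAZ.RedCusp18.Main
import Fermat.Agent.MAZ.RedFibre34.RedCuspInst
import Fermat.Agent.X0.FFConst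

set_option autoImplicit false
set_option linter.unusedSectionVars false
set_option linter.style.haveILetI false

open HahnSeries IntermediateField AlgebraicCurve ModularCurve

noncomputable section

namespace Fermat.Agent.MAZ.RedCusp18

open Fermat.Agent.X0 Fermat.Agent.MAZ.RedFibre34

variable (p : ℕ) [NeZero p]

/-- **(Rb)** in helper34's shape, any field. -/
theorem qPlaceHyp (k : Type*) [Field k] : QPlaceHyp k p :=
  ⟨qPlace k p, qPlace_ord_jk k p, qPlace_ord_jpk k p⟩

/-- **(Ra)** in helper34's shape, `k` algebraically closed of characteristic `ℓ ≠ p`. -/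
theorem poleDegHyp_field (hp : p.Prime) (k : Type) [Field k] [IsAlgClosed k] (ℓ : ℕ)
    [Fact ℓ.Prime] [CharP k ℓ] (hℓp : ℓ ≠ p) : PoleDegHyp k p := by
  classical
  have hℓp' : ¬ ℓ ∣ p := fun h => hℓp ((Nat.prime_dvd_prime_iff_eq Fact.out hp).1 h)
  obtain ⟨hgen, -, -⟩ := isGen_sep_jk p k ℓ hℓp'
  obtain ⟨hfin, hsum⟩ := poles_jk_field p hp k ℓ hℓp
  intro D hD0 hDp
  have hdeg : Divisor.degree D = ∑ v ∈ D.support, D v := by
    rw [Divisor.degree, Finsupp.liftAddHom_apply, Finsupp.sum]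
    refine Finset.sum_congr rfl fun v _ => ?_
    rw [AddMonoidHom.coe_mulRight, FF.deg_eq_one hgen v]
    simp
  have hsub : hfin.toFinset ⊆ D.support := by
    intro v hv
    rw [Set.Finite.mem_toFinset, Set.mem_ofPred_eq] at hv
    rw [Finsupp.mem_support_iff]
    have := hDp v
    omega
  have hsum' : ∑ v ∈ hfin.toFinset, -v.ord (jk k p) = (p : ℤ) + 1 := by
    rw [← hsum]
    exact (finsum_mem_eq_finite_toFinset_sum _ hfin).symm
  rw [hdeg, ← hsum']
  calc ∑ v ∈ hfin.toFinset, -v.ord (jk k p) ≤ ∑ v ∈ hfin.toFinset, D v :=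
        Finset.sum_le_sum fun v _ => hDp v
    _ ≤ ∑ v ∈ D.support, D v :=
        Finset.sum_le_sum_of_subset_of_nonneg hsub fun v _ _ => hD0 v

set_option synthInstance.maxHeartbeats 400000 in
/-- **(Ra)** for `k = ResidueField A`, `A` over `ℓ ≠ p`. -/
theorem poleDegHyp (A : ValuationSubring (AlgebraicClosure ℚ)) (hp : p.Prime) {ℓ : ℕ}
    (hℓ : ℓ.Prime) (hℓp : ℓ ≠ p) (hA : A.LiesOverPrime ℓ) :
    PoleDegHyp (IsLocalRing.ResidueField A) p := by
  haveI : Fact ℓ.Prime := ⟨hℓ⟩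
  haveI : IsAlgClosed (IsLocalRing.ResidueField A) :=
    Fermat.Agent.ES.KRON.KronInst10.isAlgClosed_residueField A
  haveI : CharP (IsLocalRing.ResidueField A) ℓ :=
    Fermat.Agent.ES.KRON.KronInst10.charP_residueField A hℓ hA
  exact poleDegHyp_field p hp (IsLocalRing.ResidueField A) ℓ hℓp

/-! ### `red_cusp` for every place reduction modulo `ℓ ≠ p` -/

section Final

set_option synthInstance.maxHeartbeats 400000

variable {p}
variable (A : ValuationSubring (AlgebraicClosure ℚ))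
  {r : Place (AlgebraicClosure ℚ) (modularFunctionFieldBar p) →
    Place (IsLocalRing.ResidueField A)
      (modularFunctionFieldFullC (IsLocalRing.ResidueField A) p)}
  [HasPrincipalDivisors (AlgebraicClosure ℚ) (modularFunctionFieldBar p)]

/-- **`red_cusp`, unconditional**: the reduction half of the cusp hypotheses for every place
reduction modulo `ℓ ≠ p`. -/
theorem redCuspHyp_modL (hp : p.Prime) {ℓ : ℕ} (hℓ : ℓ.Prime) (hℓp : ℓ ≠ p)
    (hA : A.LiesOverPrime ℓ) (hr : IsPlaceReductionModL A p r) : RedCuspHyp r :=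
  redCuspHyp_of_inputs hp hr (poleDegHyp p A hp hℓ hℓp hA) (qPlaceHyp p _)

/-- All cusp hypotheses of (D3) for every place reduction modulo `ℓ ≠ p`. -/
theorem cuspHyp_modL (hp : p.Prime) {ℓ : ℕ} (hℓ : ℓ.Prime) (hℓp : ℓ ≠ p)
    (hA : A.LiesOverPrime ℓ) (hr : IsPlaceReductionModL A p r) :
    CuspHyp r (Fermat.Agent.MAZ.HeckeCusp89.cuspInf p) (Fermat.Agent.MAZ.HeckeCusp89.cuspZero p) :=
  (redCuspHyp_modL A hp hℓ hℓp hA hr).cuspHyp hp

/-- `r ∞` is the `q`-order place. -/
theorem red_cuspInf_eq_qPlace (hp : p.Prime) {ℓ : ℕ} (hℓ : ℓ.Prime) (hℓp : ℓ ≠ p)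
    (hA : A.LiesOverPrime ℓ) (hr : IsPlaceReductionModL A p r) :
    r (Fermat.Agent.MAZ.HeckeCusp89.cuspInf p) = qPlace (IsLocalRing.ResidueField A) p :=
  red_cusp_eq_qPlace hp hr (poleDegHyp p A hp hℓ hℓp hA) _
    ⟨qPlace_ord_jk _ p, qPlace_ord_jpk _ p⟩

end Final

end Fermat.Agent.MAZ.RedCusp18
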